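import Mathlib
import Fermat.Prelude.Def_FLTPrelim_FreyPackage
import Fermat.Prelude.Def_FLTPrelim_Modularity

set_option autoImplicit false

namespace Fermat.Agent.S04.H59

open WeierstrassCurve

/-- `b` is even in a Frey package. -/
lemma two_dvd_b (P : FreyPackage) : (2 : ℤ) ∣ P.b :=
  (ZMod.intCast_zmod_eq_zero_iff_dvd P.b 2).1 P.hb2

/-- `32 ∣ b ^ p` in a Frey package. -/
lemma thirtytwo_dvd_b_pow (P : FreyPackage) : (32 : ℤ) ∣ P.b ^ P.p := by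
  have h2 : (2 : ℤ) ^ 5 ∣ P.b ^ 5 := pow_dvd_pow_of_dvd (two_dvd_b P) 5
  have h5 : P.b ^ 5 ∣ P.b ^ P.p := pow_dvd_pow _ P.hp5
  exact (by norm_num : (32 : ℤ) = 2 ^ 5) ▸ h2.trans h5

/-- `a ^ p ≡ 3 mod 4` in a Frey package. -/
lemma a_pow_mod_four (P : FreyPackage) : ((P.a ^ P.p : ℤ) : ZMod 4) = 3 := by
  obtain ⟨k, hk⟩ := P.hp_odd
  have h := P.ha4
  push_cast
  rw [h, hk, pow_succ, pow_mul]
  have : (3 : ZMod 4) ^ 2 = 1 := by decide
  rw [this, one_pow, one_mul]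

lemma four_dvd_a2_num (P : FreyPackage) : (4 : ℤ) ∣ P.b ^ P.p - 1 - P.a ^ P.p := by
  refine (ZMod.intCast_zmod_eq_zero_iff_dvd _ 4).1 ?_
  have hb : ((P.b ^ P.p : ℤ) : ZMod 4) = 0 := by
    rw [ZMod.intCast_zmod_eq_zero_iff_dvd]
    exact (by norm_num : (4 : ℤ) ∣ 32).trans (thirtytwo_dvd_b_pow P)
  have ha := a_pow_mod_four P
  push_cast at hb ha ⊢
  rw [hb, ha]
  decide

lemma sixteen_dvd_a4_num (P : FreyPackage) : (16 : ℤ) ∣ -(P.a ^ P.p) * (P.b ^ P.p) :=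
  Dvd.dvd.mul_left ((by norm_num : (16 : ℤ) ∣ 32).trans (thirtytwo_dvd_b_pow P)) _

/-- The integral Frey curve maps to the rational Frey curve. -/
lemma freyCurveInt_map (P : FreyPackage) :
    P.freyCurveInt.map (Int.castRingHom ℚ) = P.freyCurve := by
  obtain ⟨k, hk⟩ := four_dvd_a2_num P
  obtain ⟨l, hl⟩ := sixteen_dvd_a4_num P
  have hkQ : ((P.b : ℚ) ^ P.p - 1 - (P.a : ℚ) ^ P.p) = 4 * k := by exact_mod_cast hk
  have hlQ : (-((P.a : ℚ) ^ P.p) * ((P.b : ℚ) ^ P.p)) = 16 * l := by exact_mod_cast hl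
  ext
  · simp [FreyPackage.freyCurveInt, FreyPackage.freyCurve, WeierstrassCurve.map]
  · simp only [FreyPackage.freyCurveInt, FreyPackage.freyCurve, WeierstrassCurve.map,
      Int.coe_castRingHom]
    rw [hk, hkQ]
    simp
  · simp [FreyPackage.freyCurveInt, FreyPackage.freyCurve, WeierstrassCurve.map]
  · simp only [FreyPackage.freyCurveInt, FreyPackage.freyCurve, WeierstrassCurve.map,
      Int.coe_castRingHom]
    rw [hl, hlQ]
    simp
  · simp [FreyPackage.freyCurveInt, FreyPackage.freyCurve, WeierstrassCurve.map]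

/-- `256 * Δ = (a^p * b^p * c^p)^2` for the integral Frey curve. -/
lemma freyCurveInt_Δ_mul (P : FreyPackage) :
    256 * P.freyCurveInt.Δ = (P.a ^ P.p * P.b ^ P.p * P.c ^ P.p) ^ 2 := by
  obtain ⟨k, hk⟩ := four_dvd_a2_num P
  obtain ⟨l, hl⟩ := sixteen_dvd_a4_num P
  have ha2 : P.freyCurveInt.a₂ = k := by
    simp only [FreyPackage.freyCurveInt]
    rw [hk]; simp
  have ha4 : P.freyCurveInt.a₄ = l := by
    simp only [FreyPackage.freyCurveInt]
    rw [hl]; simp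
  have ha1 : P.freyCurveInt.a₁ = 1 := rfl
  have ha3 : P.freyCurveInt.a₃ = 0 := rfl
  have ha6 : P.freyCurveInt.a₆ = 0 := rfl
  have hc : P.c ^ P.p = P.a ^ P.p + P.b ^ P.p := P.hFLT.symm
  simp only [WeierstrassCurve.Δ, WeierstrassCurve.b₂, WeierstrassCurve.b₄, WeierstrassCurve.b₆,
    WeierstrassCurve.b₈, ha1, ha2, ha3, ha4, ha6, hc]
  have hB : P.b ^ P.p = 4 * k + 1 + P.a ^ P.p := by linarith
  have hl' : P.a ^ P.p * (4 * k + 1 + P.a ^ P.p) = - (16 * l) := by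
    rw [← hB]; linarith
  rw [hB]
  have h2 : (P.a ^ P.p * (4 * k + 1 + P.a ^ P.p) * (P.a ^ P.p + (4 * k + 1 + P.a ^ P.p))) ^ 2
      = (P.a ^ P.p * (4 * k + 1 + P.a ^ P.p)) ^ 2 *
        ((4 * k + 1) ^ 2 + 4 * (P.a ^ P.p * (4 * k + 1 + P.a ^ P.p))) := by ring
  rw [h2, hl']
  ring

/-- `c₄ = (c^p)^2 - a^p * b^p` for the integral Frey curve. -/
lemma freyCurveInt_c₄ (P : FreyPackage) :
    P.freyCurveInt.c₄ = (P.c ^ P.p) ^ 2 - P.a ^ P.p * P.b ^ P.p := by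
  obtain ⟨k, hk⟩ := four_dvd_a2_num P
  obtain ⟨l, hl⟩ := sixteen_dvd_a4_num P
  have ha2 : P.freyCurveInt.a₂ = k := by
    simp only [FreyPackage.freyCurveInt]
    rw [hk]; simp
  have ha4 : P.freyCurveInt.a₄ = l := by
    simp only [FreyPackage.freyCurveInt]
    rw [hl]; simp
  have ha1 : P.freyCurveInt.a₁ = 1 := rfl
  have ha3 : P.freyCurveInt.a₃ = 0 := rfl
  have hc : P.c ^ P.p = P.a ^ P.p + P.b ^ P.p := P.hFLT.symm
  simp only [WeierstrassCurve.c₄, WeierstrassCurve.b₂, WeierstrassCurve.b₄, ha1, ha2, ha3, ha4,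
    hc]
  have hB : P.b ^ P.p = 4 * k + 1 + P.a ^ P.p := by linarith
  have hl' : P.a ^ P.p * (4 * k + 1 + P.a ^ P.p) = - (16 * l) := by
    rw [← hB]; linarith
  rw [hB]
  linear_combination (-3 : ℤ) * hl'

lemma freyCurveInt_Δ_ne_zero (P : FreyPackage) : P.freyCurveInt.Δ ≠ 0 := by
  intro h
  have := freyCurveInt_Δ_mul P
  rw [h, mul_zero] at this
  have h0 : P.a ^ P.p * P.b ^ P.p * P.c ^ P.p ≠ 0 :=
    mul_ne_zero (mul_ne_zero (pow_ne_zero _ P.ha0) (pow_ne_zero _ P.hb0)) (pow_ne_zero _ P.hc0)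
  exact h0 (pow_eq_zero_iff (two_ne_zero)|>.1 this.symm)

lemma not_prime_dvd_of_gcd_eq_one {x y : ℤ} (h : gcd x y = 1) {q : ℕ} (hq : q.Prime)
    (hx : (q : ℤ) ∣ x) (hy : (q : ℤ) ∣ y) : False := by
  have : (q : ℤ) ∣ gcd x y := dvd_gcd hx hy
  rw [h] at this
  have := Int.natCast_dvd_natCast.1 (by simpa using this : ((q : ℕ) : ℤ) ∣ ((1 : ℕ) : ℤ))
  exact hq.one_lt.ne' (Nat.dvd_one.1 this)

/-- The integral Frey curve is semistable. -/
lemma freyCurveInt_isSemistableModel (P : FreyPackage) : P.freyCurveInt.IsSemistableModel := by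
  intro q hq hΔ hc4
  have hqp : Prime (q : ℤ) := Nat.prime_iff_prime_int.1 hq
  have h1 : (q : ℤ) ∣ (P.a ^ P.p * P.b ^ P.p * P.c ^ P.p) ^ 2 := by
    rw [← freyCurveInt_Δ_mul]; exact Dvd.dvd.mul_left hΔ _
  have h2 := hqp.dvd_of_dvd_pow h1
  rw [freyCurveInt_c₄] at hc4
  have key : ∀ x y : ℤ, gcd x y = 1 → (q : ℤ) ∣ x ^ P.p → (q : ℤ) ∣ y ^ P.p → False :=
    fun x y hxy hx hy =>
      not_prime_dvd_of_gcd_eq_one hxy hq (hqp.dvd_of_dvd_pow hx) (hqp.dvd_of_dvd_pow hy)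
  have hc : P.c ^ P.p = P.a ^ P.p + P.b ^ P.p := P.hFLT.symm
  rcases hqp.dvd_or_dvd h2 with h3 | h3
  · rcases hqp.dvd_or_dvd h3 with h4 | h4
    · -- q ∣ a^p
      have : (q : ℤ) ∣ (P.b ^ P.p) ^ 2 := by
        have e : (P.b ^ P.p) ^ 2 = ((P.c ^ P.p) ^ 2 - P.a ^ P.p * P.b ^ P.p)
            - P.a ^ P.p * (P.a ^ P.p + P.b ^ P.p) := by rw [hc]; ring
        rw [e]; exact dvd_sub hc4 (Dvd.dvd.mul_right h4 _)
      exact key _ _ P.hgcdab h4 (hqp.dvd_of_dvd_pow this)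
    · -- q ∣ b^p
      have : (q : ℤ) ∣ (P.a ^ P.p) ^ 2 := by
        have e : (P.a ^ P.p) ^ 2 = ((P.c ^ P.p) ^ 2 - P.a ^ P.p * P.b ^ P.p)
            - P.b ^ P.p * (P.a ^ P.p + P.b ^ P.p) := by rw [hc]; ring
        rw [e]; exact dvd_sub hc4 (Dvd.dvd.mul_right h4 _)
      exact key _ _ P.hgcdab (hqp.dvd_of_dvd_pow this) h4
  · -- q ∣ c^p
    have : (q : ℤ) ∣ P.a ^ P.p * P.b ^ P.p := by
      have e : P.a ^ P.p * P.b ^ P.p = P.c ^ P.p * P.c ^ P.p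
          - ((P.c ^ P.p) ^ 2 - P.a ^ P.p * P.b ^ P.p) := by ring
      rw [e]; exact dvd_sub (Dvd.dvd.mul_right h3 _) hc4
    rcases hqp.dvd_or_dvd this with h4 | h4
    · exact key _ _ P.hgcdac h4 h3
    · exact key _ _ P.hgcdbc h4 h3

/-- The integral Frey curve is an integral model of the rational Frey curve. -/
lemma freyCurveInt_isIntegralModelOf (P : FreyPackage) :
    P.freyCurveInt.IsIntegralModelOf P.freyCurve :=
  ⟨1, by rw [one_smul, freyCurveInt_map]⟩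

/-- Reduction of S04 to S60: if every semistable integral Weierstrass curve with nonzero
discriminant is modular, then the Frey curve is modular. -/
theorem frey_isModular_of_modularity
    (h60 : ∀ W : WeierstrassCurve ℤ, W.Δ ≠ 0 → W.IsSemistableModel →
      (W.map (Int.castRingHom ℚ)).IsModular)
    (P : FreyPackage) : P.freyCurve.IsModular := by
  rw [← freyCurveInt_map]
  exact h60 _ (freyCurveInt_Δ_ne_zero P) (freyCurveInt_isSemistableModel P)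

end Fermat.Agent.S04.H59
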