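import Mathlib
import Fermat.Prelude.Def_FLTPrelim_FreyPackage
import Fermat.Prelude.Def_FLTPrelim_Modularity

set_option autoImplicit false

namespace Fermat.Agent.S04.H4

open FreyPackage WeierstrassCurve

/-- `2 ∣ b`. -/
lemma two_dvd_b (P : FreyPackage) : (2 : ℤ) ∣ P.b :=
  (ZMod.intCast_zmod_eq_zero_iff_dvd P.b 2).1 P.hb2

/-- `32 ∣ b ^ p`. -/
lemma thirtytwo_dvd_b_pow (P : FreyPackage) : (32 : ℤ) ∣ P.b ^ P.p := by
  have h1 : (2 : ℤ) ^ 5 ∣ P.b ^ 5 := pow_dvd_pow_of_dvd (two_dvd_b P) 5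
  have h2 : P.b ^ 5 ∣ P.b ^ P.p := pow_dvd_pow _ P.hp5
  exact (by norm_num : (32 : ℤ) = 2 ^ 5) ▸ h1.trans h2

lemma sixteen_dvd_b_pow (P : FreyPackage) : (16 : ℤ) ∣ P.b ^ P.p :=
  Dvd.dvd.trans (by norm_num) (thirtytwo_dvd_b_pow P)

lemma four_dvd_b_pow (P : FreyPackage) : (4 : ℤ) ∣ P.b ^ P.p :=
  Dvd.dvd.trans (by norm_num) (thirtytwo_dvd_b_pow P)

/-- `a ^ p ≡ 3 mod 4`. -/
lemma a_pow_zmod_four (P : FreyPackage) : ((P.a ^ P.p : ℤ) : ZMod 4) = 3 := by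
  obtain ⟨k, hk⟩ := P.hp_odd
  rw [Int.cast_pow, P.ha4, hk, pow_succ, pow_mul]
  have : (3 : ZMod 4) ^ 2 = 1 := by decide
  rw [this, one_pow, one_mul]

lemma four_dvd_a2_num (P : FreyPackage) : (4 : ℤ) ∣ P.b ^ P.p - 1 - P.a ^ P.p := by
  refine (ZMod.intCast_zmod_eq_zero_iff_dvd _ 4).1 ?_
  have hb : ((P.b ^ P.p : ℤ) : ZMod 4) = 0 :=
    (ZMod.intCast_zmod_eq_zero_iff_dvd _ 4).2 (four_dvd_b_pow P)
  rw [Int.cast_sub, Int.cast_sub, hb, a_pow_zmod_four P]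
  decide

lemma sixteen_dvd_a4_num (P : FreyPackage) : (16 : ℤ) ∣ -(P.a ^ P.p) * (P.b ^ P.p) :=
  Dvd.dvd.mul_left (sixteen_dvd_b_pow P) _

lemma four_mul_a₂ (P : FreyPackage) :
    4 * P.freyCurveInt.a₂ = P.b ^ P.p - 1 - P.a ^ P.p :=
  Int.mul_ediv_cancel' (four_dvd_a2_num P)

lemma sixteen_mul_a₄ (P : FreyPackage) :
    16 * P.freyCurveInt.a₄ = -(P.a ^ P.p) * (P.b ^ P.p) :=
  Int.mul_ediv_cancel' (sixteen_dvd_a4_num P)

lemma freyCurveInt_a₁ (P : FreyPackage) : P.freyCurveInt.a₁ = 1 := rfl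
lemma freyCurveInt_a₃ (P : FreyPackage) : P.freyCurveInt.a₃ = 0 := rfl
lemma freyCurveInt_a₆ (P : FreyPackage) : P.freyCurveInt.a₆ = 0 := rfl

/-- `c₄ = a^{2p} + a^p b^p + b^{2p}`. -/
lemma freyCurveInt_c₄ (P : FreyPackage) :
    P.freyCurveInt.c₄ = (P.a ^ P.p) ^ 2 + P.a ^ P.p * P.b ^ P.p + (P.b ^ P.p) ^ 2 := by
  have h2 := four_mul_a₂ P
  have h4 := sixteen_mul_a₄ P
  simp only [WeierstrassCurve.c₄, WeierstrassCurve.b₂, WeierstrassCurve.b₄,
    freyCurveInt_a₁, freyCurveInt_a₃]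
  linear_combination (2 + 4 * P.freyCurveInt.a₂ + (P.b ^ P.p - 1 - P.a ^ P.p)) * h2 - 3 * h4

/-- `Δ = a₄² · (c^p)²`. -/
lemma freyCurveInt_Δ (P : FreyPackage) :
    P.freyCurveInt.Δ = P.freyCurveInt.a₄ ^ 2 * (P.c ^ P.p) ^ 2 := by
  have h2 := four_mul_a₂ P
  have h4 := sixteen_mul_a₄ P
  have hF := P.hFLT
  simp only [WeierstrassCurve.Δ, WeierstrassCurve.b₂, WeierstrassCurve.b₄, WeierstrassCurve.b₆,
    WeierstrassCurve.b₈, freyCurveInt_a₁, freyCurveInt_a₃, freyCurveInt_a₆, ← hF]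
  linear_combination
    P.freyCurveInt.a₄ ^ 2 * (2 + 4 * P.freyCurveInt.a₂ + (P.b ^ P.p - 1 - P.a ^ P.p)) * h2
      - 4 * P.freyCurveInt.a₄ ^ 2 * h4

lemma prime_dvd_pow_int {q : ℕ} (hq : q.Prime) {x : ℤ} {n : ℕ} (h : (q : ℤ) ∣ x ^ n) :
    (q : ℤ) ∣ x :=
  (Nat.prime_iff_prime_int.1 hq).dvd_of_dvd_pow h

lemma not_dvd_both_of_gcd_one {x y : ℤ} (h : gcd x y = 1) {q : ℕ} (hq : q.Prime)
    (hx : (q : ℤ) ∣ x) (hy : (q : ℤ) ∣ y) : False := by
  have h1 : (q : ℤ) ∣ gcd x y := dvd_gcd hx hy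
  rw [h] at h1
  have h2 : (q : ℤ) ≤ 1 := Int.le_of_dvd one_pos h1
  have := hq.two_le
  omega

/-- The integral Frey curve is semistable: no prime divides both `Δ` and `c₄`. -/
theorem freyCurveInt_isSemistableModel (P : FreyPackage) : P.freyCurveInt.IsSemistableModel := by
  intro q hq hΔ hc₄
  have hqi : Prime (q : ℤ) := Nat.prime_iff_prime_int.1 hq
  rw [freyCurveInt_c₄] at hc₄
  rw [freyCurveInt_Δ] at hΔ
  have h4 := sixteen_mul_a₄ P
  rcases hqi.dvd_or_dvd hΔ with h | h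
  · -- q ∣ a₄², so q ∣ a or q ∣ b
    have ha₄ : (q : ℤ) ∣ P.freyCurveInt.a₄ := hqi.dvd_of_dvd_pow h
    have hAB : (q : ℤ) ∣ P.a ^ P.p * P.b ^ P.p := by
      have : (q : ℤ) ∣ 16 * P.freyCurveInt.a₄ := Dvd.dvd.mul_left ha₄ _
      rw [h4] at this
      simpa using this
    rcases hqi.dvd_or_dvd hAB with hA | hB
    · have hB2 : (q : ℤ) ∣ (P.b ^ P.p) ^ 2 := by
        have h1 : (q : ℤ) ∣ (P.a ^ P.p) ^ 2 + P.a ^ P.p * P.b ^ P.p :=
          dvd_add (Dvd.dvd.pow hA two_ne_zero) (Dvd.dvd.mul_right hA _)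
        exact (dvd_add_right h1).1 hc₄
      exact not_dvd_both_of_gcd_one P.hgcdab hq (prime_dvd_pow_int hq hA)
        (prime_dvd_pow_int hq (prime_dvd_pow_int hq hB2))
    · have hA2 : (q : ℤ) ∣ (P.a ^ P.p) ^ 2 := by
        have h1 : (q : ℤ) ∣ P.a ^ P.p * P.b ^ P.p + (P.b ^ P.p) ^ 2 :=
          dvd_add (Dvd.dvd.mul_left hB _) (Dvd.dvd.pow hB two_ne_zero)
        rw [add_assoc] at hc₄
        exact (dvd_add_left h1).1 hc₄
      exact not_dvd_both_of_gcd_one P.hgcdab hq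
        (prime_dvd_pow_int hq (prime_dvd_pow_int hq hA2)) (prime_dvd_pow_int hq hB)
  · -- q ∣ (c^p)², so q ∣ c; then q ∣ a^p b^p
    have hC : (q : ℤ) ∣ P.c ^ P.p := hqi.dvd_of_dvd_pow h
    have hc : (q : ℤ) ∣ P.c := prime_dvd_pow_int hq hC
    have hAB : (q : ℤ) ∣ P.a ^ P.p * P.b ^ P.p := by
      have e : (P.a ^ P.p) ^ 2 + P.a ^ P.p * P.b ^ P.p + (P.b ^ P.p) ^ 2
          = (P.c ^ P.p) ^ 2 - P.a ^ P.p * P.b ^ P.p := by
        rw [← P.hFLT]; ring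
      rw [e] at hc₄
      have := (dvd_sub_right (Dvd.dvd.pow hC two_ne_zero)).1 hc₄
      exact this
    rcases hqi.dvd_or_dvd hAB with hA | hB
    · exact not_dvd_both_of_gcd_one P.hgcdac hq (prime_dvd_pow_int hq hA) hc
    · exact not_dvd_both_of_gcd_one P.hgcdbc hq (prime_dvd_pow_int hq hB) hc

end Fermat.Agent.S04.H4

namespace Fermat.Agent.S04.H4

open FreyPackage WeierstrassCurve

lemma freyCurveInt_a₄_ne_zero (P : FreyPackage) : P.freyCurveInt.a₄ ≠ 0 := by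
  intro h
  have h4 := sixteen_mul_a₄ P
  rw [h, mul_zero] at h4
  have : P.a ^ P.p * P.b ^ P.p ≠ 0 :=
    mul_ne_zero (pow_ne_zero _ P.ha0) (pow_ne_zero _ P.hb0)
  apply this
  linarith

/-- The integral Frey curve has nonzero discriminant. -/
theorem freyCurveInt_Δ_ne_zero (P : FreyPackage) : P.freyCurveInt.Δ ≠ 0 := by
  rw [freyCurveInt_Δ]
  exact mul_ne_zero (pow_ne_zero _ (freyCurveInt_a₄_ne_zero P))
    (pow_ne_zero _ (pow_ne_zero _ P.hc0))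

/-- The base change of the integral Frey curve to `ℚ` is the Frey curve. -/
theorem freyCurveInt_map (P : FreyPackage) :
    P.freyCurveInt.map (Int.castRingHom ℚ) = P.freyCurve := by
  have h2 := four_mul_a₂ P
  have h4 := sixteen_mul_a₄ P
  ext
  · simp [freyCurveInt, freyCurve]
  · simp only [WeierstrassCurve.map_a₂]
    have : ((4 * P.freyCurveInt.a₂ : ℤ) : ℚ) = ((P.b ^ P.p - 1 - P.a ^ P.p : ℤ) : ℚ) := by
      rw [h2]
    simp only [freyCurve, eq_intCast] at this ⊢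
    push_cast at this ⊢
    linarith
  · simp [freyCurveInt, freyCurve]
  · simp only [WeierstrassCurve.map_a₄]
    have : ((16 * P.freyCurveInt.a₄ : ℤ) : ℚ) = ((-(P.a ^ P.p) * (P.b ^ P.p) : ℤ) : ℚ) := by
      rw [h4]
    simp only [freyCurve, eq_intCast] at this ⊢
    push_cast at this ⊢
    linarith
  · simp [freyCurveInt, freyCurve]

/-- The integral Frey curve is an integral model of the Frey curve. -/
theorem freyCurveInt_isIntegralModelOf (P : FreyPackage) :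
    P.freyCurveInt.IsIntegralModelOf P.freyCurve :=
  ⟨1, by rw [one_smul, freyCurveInt_map]⟩

/-- Wiring: modularity of semistable integral Weierstrass curves (the statement of S60) implies
modularity of the Frey curve (the statement of S04). -/
theorem frey_isModular_of_semistable_modular
    (h60 : ∀ W : WeierstrassCurve ℤ, W.Δ ≠ 0 → W.IsSemistableModel →
      (W.map (Int.castRingHom ℚ)).IsModular)
    (P : FreyPackage) : P.freyCurve.IsModular := by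
  have := h60 P.freyCurveInt (freyCurveInt_Δ_ne_zero P) (freyCurveInt_isSemistableModel P)
  rwa [freyCurveInt_map] at this

end Fermat.Agent.S04.H4
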